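import Fermat.Agent.H21.Es1C.Interfaces
import Fermat.Agent.H31.PeriodBasic

/-!
# P-ES1 / block ES1-C, row PER-B1 (helper47): the period map of `S₂(Γ₁(M))` is `ℂ`-linear

Port of `Fermat.Agent.H31.PeriodBasic` from `Γ₀(N)` to the group `G1 M = ⟨Γ₁(M), -1⟩`.

Main results (namespace `Fermat.Agent.H47.Es1C`):

* `hasEqPrim1_unique` : the decaying equivariant primitive of a cusp form is unique;
* `periodMap1_apply_I`, `periodMap1_apply` : for ANY `F` with `HasEqPrim1 M f F`,
  `periodMap1 M f γ = F (γ • z) - F z` (at `z = I`, resp. at an arbitrary base point);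
* `hasEqPrim1_add`, `hasEqPrim1_smul`, `hasEqPrim1_zero`, `hasEqPrim1_neg`, `hasEqPrim1_sub`,
  `hasEqPrim1_sum`;
* `periodMap1_add`, `periodMap1_smul`, `periodMap1_zero`, `periodMap1_neg`, `periodMap1_sub`,
  `periodMap1_sum` and the linear map `periodMap1Linear`;
* `periodLinear1 : ExistsPrimitive1Statement → PeriodLinear1Statement`.
-/

set_option autoImplicit false

noncomputable section

namespace Fermat.Agent.H47.Es1C

open UpperHalfPlane CongruenceSubgroup Filter Topology ModularCurve ModularCurve.Period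
open Fermat.Agent.H21.Es1C
open scoped MatrixGroups

/-- Uniqueness of the decaying equivariant primitive of a cusp form on `Γ₁(M)`. -/
theorem hasEqPrim1_unique {M : ℕ} {f : CuspForm (Gamma1 M) 2} {F₁ F₂ : ℍ → ℂ}
    (h₁ : HasEqPrim1 M f F₁) (h₂ : HasEqPrim1 M f F₂) : F₁ = F₂ :=
  Fermat.Agent.H31.primitive_unique h₁.1 h₂.1 h₁.2.1 h₂.2.1

/-- **Apply formula for the period map** at the base point `I`: for any decaying equivariant
primitive `F` of `f`, `periodMap1 M f γ = F (γ • I) - F I`. -/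
theorem periodMap1_apply_I {M : ℕ} {f : CuspForm (Gamma1 M) 2} {F : ℍ → ℂ}
    (hF : HasEqPrim1 M f F) (γ : ↥(G1 M)) :
    periodMap1 M f (Additive.ofMul γ)
      = F ((γ : SL(2, ℤ)) • UpperHalfPlane.I) - F UpperHalfPlane.I := by
  classical
  have hex : ∃ F : ℍ → ℂ, HasEqPrim1 M f F := ⟨F, hF⟩
  have hFF : hex.choose = F := hasEqPrim1_unique hex.choose_spec hF
  unfold periodMap1
  rw [dif_pos hex, IsEquivariantPrimitive.periodHom_apply]
  show hex.choose ((γ : SL(2, ℤ)) • UpperHalfPlane.I) - hex.choose UpperHalfPlane.I = _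
  rw [hFF]

/-- **Apply formula for the period map** at an arbitrary base point (twin of
`H31.periodMap_apply_of_hasEquivariantPrimitive'`). -/
theorem periodMap1_apply {M : ℕ} {f : CuspForm (Gamma1 M) 2} {F : ℍ → ℂ}
    (hF : HasEqPrim1 M f F) (γ : ↥(G1 M)) (z : ℍ) :
    periodMap1 M f (Additive.ofMul γ) = F ((γ : SL(2, ℤ)) • z) - F z := by
  rw [periodMap1_apply_I hF γ]
  exact (hF.2.2.1.sub_eq_period γ z).symm

/-- If there is no decaying equivariant primitive, the period map is `0` (by definition). -/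
theorem periodMap1_eq_zero_of_not_exists {M : ℕ} {f : CuspForm (Gamma1 M) 2}
    (h : ¬ ∃ F : ℍ → ℂ, HasEqPrim1 M f F) : periodMap1 M f = 0 := by
  classical
  unfold periodMap1
  rw [dif_neg h]

/-- The sum of decaying equivariant primitives is one of the sum. -/
theorem hasEqPrim1_add {M : ℕ} {f g : CuspForm (Gamma1 M) 2} {F G : ℍ → ℂ}
    (hF : HasEqPrim1 M f F) (hG : HasEqPrim1 M g G) :
    HasEqPrim1 M (f + g) (fun z => F z + G z) := by
  refine ⟨fun τ => ?_, ?_, fun γ => ?_, fun δ => ?_⟩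
  · have := (hF.1 τ).fun_add (hG.1 τ)
    simpa [Function.comp_def] using this
  · simpa using hF.2.1.add hG.2.1
  · obtain ⟨c, hc⟩ := hF.2.2.1 γ
    obtain ⟨d, hd⟩ := hG.2.2.1 γ
    refine ⟨c + d, fun z => ?_⟩
    rw [← hc z, ← hd z]; ring
  · obtain ⟨L, hL⟩ := hF.2.2.2 δ
    obtain ⟨L', hL'⟩ := hG.2.2.2 δ
    exact ⟨L + L', hL.add hL'⟩

/-- A scalar multiple of a decaying equivariant primitive is one of the scalar multiple. -/
theorem hasEqPrim1_smul {M : ℕ} {f : CuspForm (Gamma1 M) 2} {F : ℍ → ℂ}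
    (c : ℂ) (hF : HasEqPrim1 M f F) :
    HasEqPrim1 M (c • f) (fun z => c * F z) := by
  refine ⟨fun τ => ?_, ?_, fun γ => ?_, fun δ => ?_⟩
  · have := (hF.1 τ).const_mul c
    simpa [Function.comp_def] using this
  · simpa using hF.2.1.const_mul c
  · obtain ⟨a, ha⟩ := hF.2.2.1 γ
    refine ⟨c * a, fun z => ?_⟩
    rw [← ha z]; ring
  · obtain ⟨L, hL⟩ := hF.2.2.2 δ
    exact ⟨c * L, hL.const_mul c⟩

/-- The zero function is the decaying equivariant primitive of the zero form. -/
theorem hasEqPrim1_zero (M : ℕ) : HasEqPrim1 M (0 : CuspForm (Gamma1 M) 2) (fun _ => 0) := by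
  refine ⟨fun τ => ?_, tendsto_const_nhds, fun γ => ⟨0, fun z => by simp⟩,
    fun δ => ⟨0, tendsto_const_nhds⟩⟩
  have h : ((fun _ : ℍ => (0 : ℂ)) ∘ ofComplex) = fun _ => (0 : ℂ) := rfl
  rw [h]
  simpa using hasDerivAt_const (τ : ℂ) (0 : ℂ)

/-- The negative of a decaying equivariant primitive. -/
theorem hasEqPrim1_neg {M : ℕ} {f : CuspForm (Gamma1 M) 2} {F : ℍ → ℂ}
    (hF : HasEqPrim1 M f F) : HasEqPrim1 M (-f) (fun z => -F z) := by
  have h := hasEqPrim1_smul (-1 : ℂ) hF
  have h1 : ((-1 : ℂ) • f) = -f := by simp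
  have h2 : (fun z => (-1 : ℂ) * F z) = fun z => -F z := by funext z; ring
  rwa [h1, h2] at h

/-- The difference of decaying equivariant primitives. -/
theorem hasEqPrim1_sub {M : ℕ} {f g : CuspForm (Gamma1 M) 2} {F G : ℍ → ℂ}
    (hF : HasEqPrim1 M f F) (hG : HasEqPrim1 M g G) :
    HasEqPrim1 M (f - g) (fun z => F z - G z) := by
  have h := hasEqPrim1_add hF (hasEqPrim1_neg hG)
  have h1 : f + -g = f - g := by rw [sub_eq_add_neg]
  have h2 : (fun z => F z + -G z) = fun z => F z - G z := by funext z; ring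
  rwa [h1, h2] at h

/-- Finite sums of decaying equivariant primitives. -/
theorem hasEqPrim1_sum {M : ℕ} {ι : Type*} (s : Finset ι) (f : ι → CuspForm (Gamma1 M) 2)
    (F : ι → ℍ → ℂ) (hF : ∀ i ∈ s, HasEqPrim1 M (f i) (F i)) :
    HasEqPrim1 M (∑ i ∈ s, f i) (fun z => ∑ i ∈ s, F i z) := by
  classical
  induction s using Finset.induction_on with
  | empty => simpa using hasEqPrim1_zero M
  | insert a s ha ih =>
    have h := hasEqPrim1_add (hF a (Finset.mem_insert_self a s))
      (ih fun i hi => hF i (Finset.mem_insert_of_mem hi))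
    rw [Finset.sum_insert ha]
    have h2 : (fun z => ∑ i ∈ insert a s, F i z) = fun z => F a z + ∑ i ∈ s, F i z := by
      funext z; rw [Finset.sum_insert ha]
    rw [h2]
    exact h

section Linear

variable (hA : ExistsPrimitive1Statement)

include hA

/-- Additivity of the period map. -/
theorem periodMap1_add (M : ℕ) [NeZero M] (f g : CuspForm (Gamma1 M) 2) :
    periodMap1 M (f + g) = periodMap1 M f + periodMap1 M g := by
  obtain ⟨F, hF⟩ := hA M f
  obtain ⟨G, hG⟩ := hA M g
  refine AddMonoidHom.ext fun γ => ?_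
  obtain ⟨γ, rfl⟩ := Additive.ofMul.surjective γ
  rw [AddMonoidHom.add_apply, periodMap1_apply_I hF, periodMap1_apply_I hG,
    periodMap1_apply_I (hasEqPrim1_add hF hG)]
  ring

/-- Homogeneity of the period map. -/
theorem periodMap1_smul (M : ℕ) [NeZero M] (c : ℂ) (f : CuspForm (Gamma1 M) 2) :
    periodMap1 M (c • f) = c • periodMap1 M f := by
  obtain ⟨F, hF⟩ := hA M f
  refine AddMonoidHom.ext fun γ => ?_
  obtain ⟨γ, rfl⟩ := Additive.ofMul.surjective γ
  rw [AddMonoidHom.smul_apply, periodMap1_apply_I hF,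
    periodMap1_apply_I (hasEqPrim1_smul c hF), smul_eq_mul]
  ring

omit hA in
/-- The period map of the zero form is zero (unconditionally). -/
theorem periodMap1_zero (M : ℕ) : periodMap1 M (0 : CuspForm (Gamma1 M) 2) = 0 := by
  refine AddMonoidHom.ext fun γ => ?_
  obtain ⟨γ, rfl⟩ := Additive.ofMul.surjective γ
  rw [periodMap1_apply_I (hasEqPrim1_zero M)]
  simp

/-- The period map commutes with negation. -/
theorem periodMap1_neg (M : ℕ) [NeZero M] (f : CuspForm (Gamma1 M) 2) :
    periodMap1 M (-f) = - periodMap1 M f := by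
  have h := periodMap1_smul hA M (-1 : ℂ) f
  simpa using h

/-- The period map commutes with subtraction. -/
theorem periodMap1_sub (M : ℕ) [NeZero M] (f g : CuspForm (Gamma1 M) 2) :
    periodMap1 M (f - g) = periodMap1 M f - periodMap1 M g := by
  rw [sub_eq_add_neg, periodMap1_add hA, periodMap1_neg hA, ← sub_eq_add_neg]

/-- The period map as a `ℂ`-linear map. -/
def periodMap1Linear (M : ℕ) [NeZero M] :
    CuspForm (Gamma1 M) 2 →ₗ[ℂ] (Additive ↥(G1 M) →+ ℂ) where
  toFun f := periodMap1 M f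
  map_add' f g := periodMap1_add hA M f g
  map_smul' c f := by
    rw [RingHom.id_apply]
    exact periodMap1_smul hA M c f

@[simp] theorem periodMap1Linear_apply (M : ℕ) [NeZero M] (f : CuspForm (Gamma1 M) 2) :
    periodMap1Linear hA M f = periodMap1 M f := rfl

/-- The period map commutes with finite sums. -/
theorem periodMap1_sum (M : ℕ) [NeZero M] {ι : Type*} (s : Finset ι)
    (f : ι → CuspForm (Gamma1 M) 2) :
    periodMap1 M (∑ i ∈ s, f i) = ∑ i ∈ s, periodMap1 M (f i) := by
  have h := map_sum (periodMap1Linear hA M) f s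
  simp only [periodMap1Linear_apply] at h
  exact h

/-- **PER1-B (1)** (row 729): the period map of `S₂(Γ₁(M))` is `ℂ`-linear, given the existence
of decaying equivariant primitives. -/
theorem periodLinear1 : PeriodLinear1Statement :=
  fun M _ f g c => ⟨periodMap1_add hA M f g, periodMap1_smul hA M c f⟩

end Linear

end Fermat.Agent.H47.Es1C

end
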